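import Mathlib
import Fermat.Agent.H45.SSContraction

/-!
# P-SS, row SSH-3 (SS-TUBE-VAL): valuation form of the supersingular tube (helper60)

Mathlib only (plus `Fermat.Agent.H45.SSContraction`).  `R` is a local ring (the valuation ring
`A₀` of the field of definition of the points), `q : ℕ` the residue characteristic, and a point
`(a, b) = (H(P), H_q(P))` of the supersingular tube is given by

* `X * Y = q * ψ` with `X = b - a ^ q`, `Y = a - b ^ q`, `ψ` a unit, `X`, `Y` in the maximal ideal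
  (`IsTubePoint q a b ψ`).

Results:

* (i)   `IsTubePoint.exists_X_factor`, `IsTubePoint.X_ne_zero`, `IsTubePoint.val_lt`:
        `q = c * X` with `c` in the maximal ideal, `X ≠ 0`, i.e. `0 < v(X) < v(q)`;
* (ii)  `tube_unique_gen` (generalisation of `H45.ssc_unique` to remainders with
        `t - t' ∈ span {a - a', b - b'}`), `tube_frac_sub_mem` (rational remainders
        `Ψ₀(a,b) / D(a,b)` satisfy this), `IsTubePoint.injective`;
* (iii) `tube_pd`: for `Φ = D * (Y - X ^ q) * (X - Y ^ q) - q * Ψ` the partial derivatives at a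
        tube point are `Φ_X = X * unit`, `Φ_Y = Y * unit`, `Φ_X + q a^(q-1) Φ_Y = X * unit`
        (all nonzero in a domain of characteristic zero);
        `taylor2` (second order Taylor expansion of bivariate polynomials),
        `tube_local_coordinate` and `tube_simple_zero`: at a place `P` of characteristic zero
        above `(a, b)` the function `X - X(P)` is a unit multiple of `H - a`.
-/

set_option autoImplicit false

namespace Fermat.Agent.H60.SS

open Polynomial IsLocalRing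
open scoped Polynomial.Bivariate

/-! ### (ii) the generalised contraction lemma -/

section Contraction

variable {R : Type*} [CommRing R]

/-- **Contraction lemma, general remainders.**  As `Fermat.Agent.H45.ssc_unique`, but the
remainders `t`, `t'` are arbitrary elements with `t - t' ∈ span {a - a', b - b'}`. -/
theorem tube_unique_gen (J : Ideal R) (hJ : J ≤ Ideal.jacobson ⊥) (n : ℕ) (hn : (n : R) ∈ J)
    (c : R) (hc : c ∈ J) (t t' : R) {a b a' b' : R} (haa : a - a' ∈ J)
    (ht : t - t' ∈ Ideal.span ({a - a', b - b'} : Set R))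
    (hX : b - a ^ n = b' - a' ^ n)
    (hY : a - b ^ n = c * t) (hY' : a' - b' ^ n = c * t') :
    a = a' ∧ b = b' := by
  obtain ⟨s, hs, hsmem⟩ := Fermat.Agent.H45.ssc_pow_sub_pow a a' n
  have hsJ : s ∈ J := by
    have h1 : s - (n : R) * a' ^ (n - 1) ∈ J := by
      have hle : Ideal.span ({a - a'} : Set R) ≤ J := by
        rw [Ideal.span_le]
        rintro _ rfl
        exact haa
      exact hle hsmem
    have h2 : (n : R) * a' ^ (n - 1) ∈ J := Ideal.mul_mem_right _ _ hn
    have : s = (s - (n : R) * a' ^ (n - 1)) + (n : R) * a' ^ (n - 1) := by ring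
    rw [this]
    exact Ideal.add_mem _ h1 h2
  have hbb : b - b' = (a - a') * s := by
    rw [← hs]
    linear_combination hX
  obtain ⟨s', hs', -⟩ := Fermat.Agent.H45.ssc_pow_sub_pow b b' n
  have hΨ : ∃ τ : R, t - t' = (a - a') * τ := by
    have hle : Ideal.span ({a - a', b - b'} : Set R) ≤ Ideal.span ({a - a'} : Set R) := by
      rw [Ideal.span_le]
      rintro x hx
      rcases hx with rfl | hx
      · exact Ideal.subset_span rfl
      · rw [Set.mem_singleton_iff] at hx
        rw [hx, hbb]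
        exact Ideal.mul_mem_right _ _ (Ideal.subset_span rfl)
    obtain ⟨τ, hτ⟩ := Ideal.mem_span_singleton'.mp (hle ht)
    exact ⟨τ, by rw [← hτ, mul_comm]⟩
  obtain ⟨τ, hτ⟩ := hΨ
  have key : a - a' = (a - a') * (c * τ + s * s') := by
    have e1 : a - a' = c * (t - t') + (b ^ n - b' ^ n) := by
      linear_combination hY - hY'
    linear_combination e1 + c * hτ + hs' + s' * hbb
  have hm : c * τ + s * s' ∈ J :=
    Ideal.add_mem _ (Ideal.mul_mem_right _ _ hc) (Ideal.mul_mem_right _ _ hsJ)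
  have hunit : IsUnit (-(c * τ + s * s') * 1 + 1) :=
    (Ideal.mem_jacobson_bot.mp (hJ (J.neg_mem hm))) 1
  have hzero : (a - a') * (-(c * τ + s * s') * 1 + 1) = 0 := by
    linear_combination key
  have ha : a - a' = 0 := by
    obtain ⟨u, hu⟩ := hunit
    have := congrArg (· * (↑u⁻¹ : R)) hzero
    simp only [zero_mul] at this
    rw [← hu, mul_assoc, Units.mul_inv, mul_one] at this
    exact this
  have ha' : a = a' := sub_eq_zero.mp ha
  refine ⟨ha', ?_⟩
  have : b - b' = 0 := by rw [hbb, ha, zero_mul]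
  exact sub_eq_zero.mp this

/-- Rational remainders `P(a,b) / D(a,b)` with unit denominators are Lipschitz. -/
theorem tube_frac_sub_mem (P D : R[X][Y]) (a b a' b' : R) (u u' : Rˣ)
    (hu : D.evalEval a b = u) (hu' : D.evalEval a' b' = u') :
    P.evalEval a b * (↑u⁻¹ : R) - P.evalEval a' b' * (↑u'⁻¹ : R) ∈
      Ideal.span ({a - a', b - b'} : Set R) := by
  have hP := Fermat.Agent.H45.ssc_evalEval_sub_mem P a b a' b'
  have hD := Fermat.Agent.H45.ssc_evalEval_sub_mem D a b a' b'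
  have h1 : (u : R) * (↑u⁻¹ : R) = 1 := Units.mul_inv u
  have h2 : (u' : R) * (↑u'⁻¹ : R) = 1 := Units.mul_inv u'
  have e : P.evalEval a b * (↑u⁻¹ : R) - P.evalEval a' b' * (↑u'⁻¹ : R)
      = (↑u⁻¹ : R) * (↑u'⁻¹ : R) * (u' : R) * (P.evalEval a b - P.evalEval a' b')
        - (↑u⁻¹ : R) * (↑u'⁻¹ : R) * P.evalEval a' b' *
          (D.evalEval a b - D.evalEval a' b') := by
    rw [hu, hu']
    linear_combination (-(P.evalEval a b * (↑u⁻¹ : R))) * h2 +
      (P.evalEval a' b' * (↑u'⁻¹ : R)) * h1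
  rw [e]
  exact Ideal.sub_mem _ (Ideal.mul_mem_left _ _ hP) (Ideal.mul_mem_left _ _ hD)

end Contraction

/-! ### (i) points of the tube -/

section Local

variable {R : Type*} [CommRing R] [IsLocalRing R]

/-- In a local ring, a unit plus an element of the maximal ideal is a unit. -/
theorem isUnit_add_of_mem {u m : R} (hu : IsUnit u) (hm : m ∈ maximalIdeal R) :
    IsUnit (u + m) := by
  by_contra h
  have h1 : u + m ∈ maximalIdeal R := (mem_maximalIdeal _).mpr h
  have h2 : u ∈ maximalIdeal R := by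
    have := Ideal.sub_mem _ h1 hm
    simpa using this
  exact (mem_maximalIdeal _).mp h2 hu

/-- A point of the supersingular tube: `X * Y = q * ψ` with `X = b - a ^ q`, `Y = a - b ^ q` in
the maximal ideal and `ψ` a unit. -/
structure IsTubePoint (q : ℕ) (a b ψ : R) : Prop where
  /-- the equation of the curve -/
  rel : (b - a ^ q) * (a - b ^ q) = (q : R) * ψ
  /-- the remainder is a unit -/
  isUnit : IsUnit ψ
  /-- `X` is in the maximal ideal -/
  X_mem : b - a ^ q ∈ maximalIdeal R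
  /-- `Y` is in the maximal ideal -/
  Y_mem : a - b ^ q ∈ maximalIdeal R

variable {q : ℕ} {a b ψ : R}

/-- `q = c * X` with `c = Y / ψ` in the maximal ideal: `v(X) < v(q)`. -/
theorem IsTubePoint.exists_X_factor (h : IsTubePoint q a b ψ) :
    ∃ c ∈ maximalIdeal R, (q : R) = c * (b - a ^ q) ∧ a - b ^ q = c * ψ := by
  obtain ⟨w, hw⟩ := h.isUnit
  have h1 : ψ * (↑w⁻¹ : R) = 1 := by rw [← hw]; exact Units.mul_inv w
  refine ⟨(a - b ^ q) * (↑w⁻¹ : R), Ideal.mul_mem_right _ _ h.Y_mem, ?_, ?_⟩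
  · linear_combination (-(q : R)) * h1 - (↑w⁻¹ : R) * h.rel
  · linear_combination (-(a - b ^ q)) * h1

/-- `q = c * Y` with `c = X / ψ` in the maximal ideal: `v(Y) < v(q)`. -/
theorem IsTubePoint.exists_Y_factor (h : IsTubePoint q a b ψ) :
    ∃ c ∈ maximalIdeal R, (q : R) = c * (a - b ^ q) ∧ b - a ^ q = c * ψ := by
  obtain ⟨w, hw⟩ := h.isUnit
  have h1 : ψ * (↑w⁻¹ : R) = 1 := by rw [← hw]; exact Units.mul_inv w
  refine ⟨(b - a ^ q) * (↑w⁻¹ : R), Ideal.mul_mem_right _ _ h.X_mem, ?_, ?_⟩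
  · linear_combination (-(q : R)) * h1 - (↑w⁻¹ : R) * h.rel
  · linear_combination (-(b - a ^ q)) * h1

/-- `q` lies in the maximal ideal. -/
theorem IsTubePoint.natCast_mem (h : IsTubePoint q a b ψ) : (q : R) ∈ maximalIdeal R := by
  obtain ⟨c, hc, hq, -⟩ := h.exists_X_factor
  rw [hq]
  exact Ideal.mul_mem_right _ _ hc

/-- The symmetry `(a, b) ↔ (b, a)` of the tube. -/
theorem IsTubePoint.symm (h : IsTubePoint q a b ψ) : IsTubePoint q b a ψ :=
  ⟨by rw [mul_comm]; exact h.rel, h.isUnit, h.Y_mem, h.X_mem⟩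

/-- `X ≠ 0` in characteristic zero: `v(X) < ∞`. -/
theorem IsTubePoint.X_ne_zero [IsDomain R] (h : IsTubePoint q a b ψ) (hq0 : (q : R) ≠ 0) :
    b - a ^ q ≠ 0 := by
  intro h0
  have := h.rel
  rw [h0, zero_mul] at this
  exact mul_ne_zero hq0 h.isUnit.ne_zero this.symm

/-- `Y ≠ 0` in characteristic zero. -/
theorem IsTubePoint.Y_ne_zero [IsDomain R] (h : IsTubePoint q a b ψ) (hq0 : (q : R) ≠ 0) :
    a - b ^ q ≠ 0 :=
  h.symm.X_ne_zero hq0

/-- `X * u₀ + q * r = X * unit` for every unit `u₀`. -/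
theorem IsTubePoint.X_mul_unit_add (h : IsTubePoint q a b ψ) {u₀ : R} (hu₀ : IsUnit u₀) (r : R) :
    ∃ u : R, IsUnit u ∧ (b - a ^ q) * u₀ + (q : R) * r = (b - a ^ q) * u := by
  obtain ⟨c, hc, hq, -⟩ := h.exists_X_factor
  refine ⟨u₀ + c * r, isUnit_add_of_mem hu₀ (Ideal.mul_mem_right _ _ hc), ?_⟩
  linear_combination r * hq

/-- `Y * u₀ + q * r = Y * unit` for every unit `u₀`. -/
theorem IsTubePoint.Y_mul_unit_add (h : IsTubePoint q a b ψ) {u₀ : R} (hu₀ : IsUnit u₀) (r : R) :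
    ∃ u : R, IsUnit u ∧ (a - b ^ q) * u₀ + (q : R) * r = (a - b ^ q) * u :=
  h.symm.X_mul_unit_add hu₀ r

/-- **(ii) Injectivity of `X` on a residue class of the tube.**  Two points of the tube in the
same residue class with the same value of `X`, whose remainders satisfy
`ψ - ψ' ∈ span {a - a', b - b'}`, are equal. -/
theorem IsTubePoint.injective [IsDomain R] {a' b' ψ' : R} (h : IsTubePoint q a b ψ)
    (h' : IsTubePoint q a' b' ψ') (hq0 : (q : R) ≠ 0)
    (haa : a - a' ∈ maximalIdeal R) (hX : b - a ^ q = b' - a' ^ q)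
    (hψ : ψ - ψ' ∈ Ideal.span ({a - a', b - b'} : Set R)) : a = a' ∧ b = b' := by
  obtain ⟨c, hc, hq, hY⟩ := h.exists_X_factor
  obtain ⟨c', -, hq', hY'⟩ := h'.exists_X_factor
  have hcc : c = c' := by
    have h1 : c * (b - a ^ q) = c' * (b - a ^ q) := by
      rw [← hq, hX, ← hq']
    exact mul_right_cancel₀ (h.X_ne_zero hq0) h1
  rw [← hcc] at hY'
  exact tube_unique_gen (maximalIdeal R)
    (le_of_eq (IsLocalRing.jacobson_eq_maximalIdeal ⊥ bot_ne_top).symm) q h.natCast_mem c hc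
    ψ ψ' haa hψ hX hY hY'

end Local

/-- **(i), valuation form**: `v(q) < v(X) < 1` (multiplicative notation) at a point of the tube
of the valuation ring of `v`. -/
theorem tube_val_lt {K Γ₀ : Type*} [Field K] [LinearOrderedCommGroupWithZero Γ₀]
    (v : Valuation K Γ₀) (q : ℕ) (hq0 : (q : K) ≠ 0) {a b ψ : K}
    (hψ : v ψ = 1) (hX : v (b - a ^ q) < 1) (hY : v (a - b ^ q) < 1)
    (hrel : (b - a ^ q) * (a - b ^ q) = (q : K) * ψ) :
    v (q : K) < v (b - a ^ q) ∧ v (b - a ^ q) < 1 ∧ v (q : K) < v (a - b ^ q) ∧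
      v (q : K) = v (b - a ^ q) * v (a - b ^ q) := by
  have hv : v (q : K) = v (b - a ^ q) * v (a - b ^ q) := by
    rw [← map_mul, hrel, map_mul, hψ, mul_one]
  have hq0' : v (q : K) ≠ 0 := (Valuation.ne_zero_iff v).mpr hq0
  have hX0 : v (b - a ^ q) ≠ 0 := fun h0 => hq0' (by rw [hv, h0, zero_mul])
  have hY0 : v (a - b ^ q) ≠ 0 := fun h0 => hq0' (by rw [hv, h0, mul_zero])
  have hX0' : 0 < v (b - a ^ q) := zero_lt_iff.mpr hX0
  have hY0' : 0 < v (a - b ^ q) := zero_lt_iff.mpr hY0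
  refine ⟨?_, hX, ?_, hv⟩
  · rw [hv]
    calc v (b - a ^ q) * v (a - b ^ q) < v (b - a ^ q) * 1 :=
          mul_lt_mul_of_pos_left hY hX0'
      _ = v (b - a ^ q) := mul_one _
  · rw [hv]
    calc v (b - a ^ q) * v (a - b ^ q) < 1 * v (a - b ^ q) :=
          mul_lt_mul_of_pos_right hX hY0'
      _ = v (a - b ^ q) := one_mul _

/-! ### (iii) partial derivatives at a point of the tube -/

section PD

variable {R : Type*} [CommRing R]

/-- The partial derivative in the inner variable `X` of `P ∈ R[X][Y]` at the point `(a, b)`. -/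
noncomputable def pdX (P : R[X][Y]) (a b : R) : R := (derivative (P.eval (C b))).eval a

/-- The partial derivative in the outer variable `Y` of `P ∈ R[X][Y]` at the point `(a, b)`. -/
noncomputable def pdY (P : R[X][Y]) (a b : R) : R := (derivative P).evalEval a b

/-- The kernel `(Y - X ^ q) * (X - Y ^ q)` of the equation of the tube. -/
noncomputable def tubeKernel (R : Type*) [CommRing R] (q : ℕ) : R[X][Y] :=
  (Y - C (X ^ q)) * (C X - Y ^ q)

theorem evalEval_tubeKernel (q : ℕ) (a b : R) :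
    (tubeKernel R q).evalEval a b = (b - a ^ q) * (a - b ^ q) := by
  simp [tubeKernel, evalEval]

theorem pdX_tube (q : ℕ) (D Ψ : R[X][Y]) (a b : R) :
    pdX (D * tubeKernel R q - C (C (q : R)) * Ψ) a b =
      (b - a ^ q) * D.evalEval a b + (q : R) * (- (D.evalEval a b * a ^ (q - 1) * (a - b ^ q))
        - pdX Ψ a b) + pdX D a b * ((b - a ^ q) * (a - b ^ q)) := by
  simp only [pdX, tubeKernel, evalEval, eval_sub, eval_mul, eval_C, eval_X, eval_pow,
    derivative_sub, derivative_mul, derivative_C, derivative_X,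
    derivative_pow, mul_zero, zero_mul, sub_zero, zero_sub, zero_add, mul_one,
    eval_add, eval_neg]
  ring

theorem pdY_tube (q : ℕ) (D Ψ : R[X][Y]) (a b : R) :
    pdY (D * tubeKernel R q - C (C (q : R)) * Ψ) a b =
      (a - b ^ q) * D.evalEval a b + (q : R) * (- (D.evalEval a b * b ^ (q - 1) * (b - a ^ q))
        - pdY Ψ a b) + pdY D a b * ((b - a ^ q) * (a - b ^ q)) := by
  simp only [pdY, tubeKernel, evalEval, eval_sub, eval_mul, eval_C, eval_X, eval_pow,
    derivative_sub, derivative_mul, derivative_C, derivative_X,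
    derivative_pow, zero_mul, sub_zero, zero_sub, zero_add, mul_one,
    eval_add, eval_neg, eval_natCast, eval_one]
  ring

/-- Compatibility of `pdX` with ring homomorphisms. -/
theorem pdX_map {S : Type*} [CommRing S] (f : R →+* S) (P : R[X][Y]) (a b : R) :
    pdX (P.map (mapRingHom f)) (f a) (f b) = f (pdX P a b) := by
  unfold pdX
  have h1 : (P.map (mapRingHom f)).eval (C (f b)) = (P.eval (C b)).map f := by
    rw [← map_mapRingHom_eval_map, Polynomial.map_C]
  rw [h1, derivative_map, eval_map_apply]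

/-- Compatibility of `pdY` with ring homomorphisms. -/
theorem pdY_map {S : Type*} [CommRing S] (f : R →+* S) (P : R[X][Y]) (a b : R) :
    pdY (P.map (mapRingHom f)) (f a) (f b) = f (pdY P a b) := by
  unfold pdY
  rw [derivative_map, map_mapRingHom_evalEval]

/-- **Second order Taylor expansion** of a bivariate polynomial. -/
theorem taylor2 (P : R[X][Y]) (a b s t : R) :
    ∃ r₁ r₂ r₃ : R, P.evalEval (a + s) (b + t) =
      P.evalEval a b + pdX P a b * s + pdY P a b * t + r₁ * s ^ 2 + r₂ * (s * t) + r₃ * t ^ 2 := by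
  obtain ⟨k, hk⟩ := binomExpansion P (C b) (C t)
  obtain ⟨k₁, hk₁⟩ := binomExpansion (P.eval (C b)) a s
  obtain ⟨m, hm⟩ := evalSubFactor ((derivative P).eval (C b)) (a + s) a
  refine ⟨k₁, m, k.eval (a + s), ?_⟩
  have e : P.evalEval (a + s) (b + t) = (P.eval (C b + C t)).eval (a + s) := by
    rw [evalEval, C_add]
  rw [e, hk]
  simp only [eval_add, eval_mul, eval_C, eval_pow, pdX, pdY, evalEval]
  rw [hk₁]
  linear_combination t * hm

end PD

section Simple

variable {R : Type*} [CommRing R] [IsLocalRing R]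

/-- A point `(a, b)` of the curve `Φ = D * (Y - X ^ q) * (X - Y ^ q) - q * Ψ = 0` with
`D(a, b)`, `Ψ(a, b)` units and `X`, `Y` in the maximal ideal is a point of the tube, with
remainder `ψ = Ψ(a, b) / D(a, b)`. -/
theorem isTubePoint_of_curve (q : ℕ) (D Ψ : R[X][Y]) (a b : R) (w : Rˣ)
    (hD : D.evalEval a b = w) (hΨ : IsUnit (Ψ.evalEval a b))
    (hΦ : (D * tubeKernel R q - C (C (q : R)) * Ψ).evalEval a b = 0)
    (hX : b - a ^ q ∈ maximalIdeal R) (hY : a - b ^ q ∈ maximalIdeal R) :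
    IsTubePoint q a b (Ψ.evalEval a b * (↑w⁻¹ : R)) := by
  have h1 : (w : R) * (↑w⁻¹ : R) = 1 := Units.mul_inv w
  have h2 : (w : R) * ((b - a ^ q) * (a - b ^ q)) = (q : R) * Ψ.evalEval a b := by
    have := hΦ
    rw [evalEval_sub, evalEval_mul, evalEval_mul, evalEval_tubeKernel, evalEval_CC, hD] at this
    exact sub_eq_zero.mp this
  refine ⟨?_, hΨ.mul (Units.isUnit _), hX, hY⟩
  linear_combination (-((b - a ^ q) * (a - b ^ q))) * h1 + (↑w⁻¹ : R) * h2

/-- **(iii) The partial derivatives at a point of the tube**: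
`Φ_X = X * unit`, `Φ_Y = Y * unit` and `Φ_X + q a^(q-1) Φ_Y = X * unit`. -/
theorem tube_pd (q : ℕ) (D Ψ : R[X][Y]) (a b : R)
    (hD : IsUnit (D.evalEval a b)) (hΨ : IsUnit (Ψ.evalEval a b))
    (hΦ : (D * tubeKernel R q - C (C (q : R)) * Ψ).evalEval a b = 0)
    (hX : b - a ^ q ∈ maximalIdeal R) (hY : a - b ^ q ∈ maximalIdeal R) :
    (∃ u : R, IsUnit u ∧
      pdX (D * tubeKernel R q - C (C (q : R)) * Ψ) a b = (b - a ^ q) * u) ∧
    (∃ u : R, IsUnit u ∧
      pdY (D * tubeKernel R q - C (C (q : R)) * Ψ) a b = (a - b ^ q) * u) ∧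
    (∃ u : R, IsUnit u ∧
      pdX (D * tubeKernel R q - C (C (q : R)) * Ψ) a b +
        (q : R) * a ^ (q - 1) * pdY (D * tubeKernel R q - C (C (q : R)) * Ψ) a b
        = (b - a ^ q) * u) := by
  obtain ⟨w, hw⟩ := hD
  have hT := isTubePoint_of_curve q D Ψ a b w hw.symm hΨ hΦ hX hY
  have hDu : IsUnit (D.evalEval a b) := ⟨w, hw⟩
  -- `X * Y = q * ψ`
  have hrel := hT.rel
  have hpx : ∃ u : R, IsUnit u ∧
      pdX (D * tubeKernel R q - C (C (q : R)) * Ψ) a b = (b - a ^ q) * u := by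
    obtain ⟨u, hu, he⟩ := hT.X_mul_unit_add hDu
      (-(D.evalEval a b * a ^ (q - 1) * (a - b ^ q)) - pdX Ψ a b +
        pdX D a b * (Ψ.evalEval a b * (↑w⁻¹ : R)))
    refine ⟨u, hu, ?_⟩
    rw [pdX_tube, ← he]
    linear_combination pdX D a b * hrel
  have hpy : ∃ u : R, IsUnit u ∧
      pdY (D * tubeKernel R q - C (C (q : R)) * Ψ) a b = (a - b ^ q) * u := by
    obtain ⟨u, hu, he⟩ := hT.Y_mul_unit_add hDu
      (-(D.evalEval a b * b ^ (q - 1) * (b - a ^ q)) - pdY Ψ a b +
        pdY D a b * (Ψ.evalEval a b * (↑w⁻¹ : R)))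
    refine ⟨u, hu, ?_⟩
    rw [pdY_tube, ← he]
    linear_combination pdY D a b * hrel
  refine ⟨hpx, hpy, ?_⟩
  obtain ⟨u, hu, he⟩ := hpx
  obtain ⟨u', hu', he'⟩ := hT.X_mul_unit_add hu
    (a ^ (q - 1) * pdY (D * tubeKernel R q - C (C (q : R)) * Ψ) a b)
  refine ⟨u', hu', ?_⟩
  rw [he, ← he']
  ring

/-- **Nonvanishing of the partial derivatives** at a point of the tube in characteristic zero:
`Φ_Y(a, b) ≠ 0` and `Φ_X(a, b) + q a^(q-1) Φ_Y(a, b) ≠ 0`, i.e. `H` is a local coordinate at the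
point and `θ - q a^(q-1) ≠ 0` for `θ = dH_q/dH = - Φ_X / Φ_Y`. -/
theorem tube_pd_ne_zero [IsDomain R] (q : ℕ) (hq0 : (q : R) ≠ 0) (D Ψ : R[X][Y]) (a b : R)
    (hD : IsUnit (D.evalEval a b)) (hΨ : IsUnit (Ψ.evalEval a b))
    (hΦ : (D * tubeKernel R q - C (C (q : R)) * Ψ).evalEval a b = 0)
    (hX : b - a ^ q ∈ maximalIdeal R) (hY : a - b ^ q ∈ maximalIdeal R) :
    pdX (D * tubeKernel R q - C (C (q : R)) * Ψ) a b ≠ 0 ∧
    pdY (D * tubeKernel R q - C (C (q : R)) * Ψ) a b ≠ 0 ∧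
    pdX (D * tubeKernel R q - C (C (q : R)) * Ψ) a b +
        (q : R) * a ^ (q - 1) * pdY (D * tubeKernel R q - C (C (q : R)) * Ψ) a b ≠ 0 := by
  obtain ⟨w, hw⟩ := hD
  have hT := isTubePoint_of_curve q D Ψ a b w hw.symm hΨ hΦ hX hY
  obtain ⟨⟨u₁, hu₁, h₁⟩, ⟨u₂, hu₂, h₂⟩, ⟨u₃, hu₃, h₃⟩⟩ :=
    tube_pd q D Ψ a b ⟨w, hw⟩ hΨ hΦ hX hY
  refine ⟨?_, ?_, ?_⟩
  · rw [h₁]
    exact mul_ne_zero (hT.X_ne_zero hq0) hu₁.ne_zero
  · rw [h₂]
    exact mul_ne_zero (hT.Y_ne_zero hq0) hu₂.ne_zero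
  · rw [h₃]
    exact mul_ne_zero (hT.X_ne_zero hq0) hu₃.ne_zero

/-- **Local coordinate.**  Let `O` be a local ring (the valuation ring of a place `P` of
characteristic zero), `Φ ∈ O[X][Y]`, and `(a, b)`, `(a + s, b + t)` two points of the curve
`Φ = 0` with `s`, `t` in the maximal ideal (`a = H(P)`, `b = H_q(P)`, `a + s = H`,
`b + t = H_q`).  If `Φ_Y(a, b)` and `Φ_X(a, b) + q a^(q-1) Φ_Y(a, b)` are units, then
`X - X(P) = (H_q - H ^ q) - (b - a ^ q)` is a unit multiple of `s = H - a`. -/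
theorem tube_local_coordinate (q : ℕ) (Φ : R[X][Y]) (a b s t : R)
    (hs : s ∈ maximalIdeal R) (ht : t ∈ maximalIdeal R)
    (h0 : Φ.evalEval a b = 0) (h1 : Φ.evalEval (a + s) (b + t) = 0)
    (hY : IsUnit (pdY Φ a b))
    (hXY : IsUnit (pdX Φ a b + (q : R) * a ^ (q - 1) * pdY Φ a b)) :
    ∃ u : R, IsUnit u ∧ ((b + t) - (a + s) ^ q) - (b - a ^ q) = s * u := by
  obtain ⟨r₁, r₂, r₃, hT⟩ := taylor2 Φ a b s t
  rw [h0, h1] at hT
  -- `t * w = - s * (Φ_X + r₁ s)` with `w` a unit
  have hw : IsUnit (pdY Φ a b + (r₂ * s + r₃ * t)) :=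
    isUnit_add_of_mem hY (Ideal.add_mem _ (Ideal.mul_mem_left _ _ hs) (Ideal.mul_mem_left _ _ ht))
  obtain ⟨w, hw'⟩ := hw
  have hww : (w : R) * (↑w⁻¹ : R) = 1 := Units.mul_inv w
  have htw : t * (w : R) = -(s * (pdX Φ a b + r₁ * s)) := by
    rw [hw']
    linear_combination -hT
  -- `t = s * m`
  have htm : t = s * (-(pdX Φ a b + r₁ * s) * (↑w⁻¹ : R)) := by
    linear_combination (-t) * hww + (↑w⁻¹ : R) * htw
  -- the expansion of `(a + s) ^ q`
  obtain ⟨k, hk⟩ := binomExpansion (X ^ q : R[X]) a s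
  simp only [eval_pow, eval_X, derivative_X_pow, eval_mul, eval_C] at hk
  -- the unit
  have hunit : IsUnit ((w : R) * (-(pdX Φ a b + r₁ * s) * (↑w⁻¹ : R) - (q : R) * a ^ (q - 1)
      - k * s)) := by
    have e : (w : R) * (-(pdX Φ a b + r₁ * s) * (↑w⁻¹ : R) - (q : R) * a ^ (q - 1) - k * s)
        = -(pdX Φ a b + (q : R) * a ^ (q - 1) * pdY Φ a b)
          + (-(r₁ * s) - (r₂ * s + r₃ * t) * ((q : R) * a ^ (q - 1)) - (w : R) * k * s) := by
      linear_combination (-(pdX Φ a b + r₁ * s)) * hww + (-((q : R) * a ^ (q - 1))) * hw'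
    rw [e]
    refine isUnit_add_of_mem hXY.neg ?_
    refine Ideal.sub_mem _ (Ideal.sub_mem _ (neg_mem (Ideal.mul_mem_left _ _ hs)) ?_)
      (Ideal.mul_mem_left _ _ hs)
    exact Ideal.mul_mem_right _ _
      (Ideal.add_mem _ (Ideal.mul_mem_left _ _ hs) (Ideal.mul_mem_left _ _ ht))
  refine ⟨-(pdX Φ a b + r₁ * s) * (↑w⁻¹ : R) - (q : R) * a ^ (q - 1) - k * s,
    (IsUnit.mul_iff.mp hunit).2, ?_⟩
  linear_combination htm - hk

/-- **Simple zero of `X - X(P)`** (combination of `tube_pd_ne_zero` and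
`tube_local_coordinate`).  `A` is the local domain of the tube (mixed characteristic), `O` the
local ring of a place of characteristic zero (every nonzero element of `A` is a unit of `O`),
`(a, b)` a point of the tube in `A`, and `(h, hq)` a point of the curve in `O` in the residue
class of `(a, b)`.  Then `(hq - h ^ q) - (b - a ^ q)` is a unit multiple of `h - a`. -/
theorem tube_simple_zero {A O : Type*} [CommRing A] [IsLocalRing A] [IsDomain A]
    [CommRing O] [IsLocalRing O] (φ : A →+* O) (hφ : ∀ x : A, x ≠ 0 → IsUnit (φ x))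
    (q : ℕ) (hq0 : (q : A) ≠ 0) (D Ψ : A[X][Y]) (a b : A)
    (hD : IsUnit (D.evalEval a b)) (hΨ : IsUnit (Ψ.evalEval a b))
    (hΦ : (D * tubeKernel A q - C (C (q : A)) * Ψ).evalEval a b = 0)
    (hX : b - a ^ q ∈ maximalIdeal A) (hY : a - b ^ q ∈ maximalIdeal A)
    (h hq' : O) (hs : h - φ a ∈ maximalIdeal O) (ht : hq' - φ b ∈ maximalIdeal O)
    (hcurve : ((D * tubeKernel A q - C (C (q : A)) * Ψ).map (mapRingHom φ)).evalEval h hq' = 0) :
    ∃ u : O, IsUnit u ∧ (hq' - h ^ q) - φ (b - a ^ q) = (h - φ a) * u := by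
  obtain ⟨-, hy, hxy⟩ := tube_pd_ne_zero q hq0 D Ψ a b hD hΨ hΦ hX hY
  set Φ := D * tubeKernel A q - C (C (q : A)) * Ψ with hΦdef
  have h0 : (Φ.map (mapRingHom φ)).evalEval (φ a) (φ b) = 0 := by
    rw [map_mapRingHom_evalEval, hΦ, map_zero]
  have h1 : (Φ.map (mapRingHom φ)).evalEval (φ a + (h - φ a)) (φ b + (hq' - φ b)) = 0 := by
    rw [add_sub_cancel, add_sub_cancel]
    exact hcurve
  have hY' : IsUnit (pdY (Φ.map (mapRingHom φ)) (φ a) (φ b)) := by
    rw [pdY_map]
    exact hφ _ hy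
  have hXY' : IsUnit (pdX (Φ.map (mapRingHom φ)) (φ a) (φ b) +
      (q : O) * (φ a) ^ (q - 1) * pdY (Φ.map (mapRingHom φ)) (φ a) (φ b)) := by
    rw [pdX_map, pdY_map]
    have e : φ (pdX Φ a b) + (q : O) * φ a ^ (q - 1) * φ (pdY Φ a b)
        = φ (pdX Φ a b + (q : A) * a ^ (q - 1) * pdY Φ a b) := by
      rw [map_add, map_mul, map_mul, map_pow, map_natCast]
    rw [e]
    exact hφ _ hxy
  obtain ⟨u, hu, he⟩ := tube_local_coordinate q (Φ.map (mapRingHom φ)) (φ a) (φ b)
    (h - φ a) (hq' - φ b) hs ht h0 h1 hY' hXY'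
  refine ⟨u, hu, ?_⟩
  rw [← he, add_sub_cancel, add_sub_cancel, map_sub, map_pow]

/-- **(ii) Injectivity of `X` on a residue class of the tube**, for points of the curve
`Φ = D * (Y - X ^ q) * (X - Y ^ q) - q * Ψ = 0`: a point `(a', b')` of the curve in the residue
class of a point `(a, b)` of the tube with the same value of `X` is equal to `(a, b)`. -/
theorem tube_injective_curve [IsDomain R] (q : ℕ) (hq0 : (q : R) ≠ 0) (D Ψ : R[X][Y])
    {a b a' b' : R} (hD : IsUnit (D.evalEval a b)) (hΨ : IsUnit (Ψ.evalEval a b))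
    (hΦ : (D * tubeKernel R q - C (C (q : R)) * Ψ).evalEval a b = 0)
    (hΦ' : (D * tubeKernel R q - C (C (q : R)) * Ψ).evalEval a' b' = 0)
    (hX : b - a ^ q ∈ maximalIdeal R) (hY : a - b ^ q ∈ maximalIdeal R)
    (haa : a - a' ∈ maximalIdeal R) (hXX : b - a ^ q = b' - a' ^ q) :
    a = a' ∧ b = b' := by
  -- `b - b'` lies in the maximal ideal
  obtain ⟨s, hs, -⟩ := Fermat.Agent.H45.ssc_pow_sub_pow a a' q
  have hbb : b - b' ∈ maximalIdeal R := by
    have e : b - b' = (a - a') * s := by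
      rw [← hs]
      linear_combination hXX
    rw [e]
    exact Ideal.mul_mem_right _ _ haa
  have hle : Ideal.span ({a - a', b - b'} : Set R) ≤ maximalIdeal R := by
    rw [Ideal.span_le]
    rintro x hx
    rcases hx with rfl | hx
    · exact haa
    · rw [Set.mem_singleton_iff] at hx
      rw [hx]
      exact hbb
  -- units at `(a', b')`
  have hunit : ∀ P : R[X][Y], IsUnit (P.evalEval a b) → IsUnit (P.evalEval a' b') := by
    intro P hP
    have h1 := hle (Fermat.Agent.H45.ssc_evalEval_sub_mem P a b a' b')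
    have e : P.evalEval a' b' = P.evalEval a b + -(P.evalEval a b - P.evalEval a' b') := by ring
    rw [e]
    exact isUnit_add_of_mem hP (neg_mem h1)
  have hX' : b' - a' ^ q ∈ maximalIdeal R := hXX ▸ hX
  have hY' : a' - b' ^ q ∈ maximalIdeal R := by
    obtain ⟨s', hs', -⟩ := Fermat.Agent.H45.ssc_pow_sub_pow b b' q
    have e : a' - b' ^ q = (a - b ^ q) - (a - a') + (b - b') * s' := by
      rw [← hs']
      ring
    rw [e]
    exact Ideal.add_mem _ (Ideal.sub_mem _ hY haa) (Ideal.mul_mem_right _ _ hbb)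
  obtain ⟨w, hw⟩ := hD
  obtain ⟨w', hw'⟩ := hunit D ⟨w, hw⟩
  have hT := isTubePoint_of_curve q D Ψ a b w hw.symm hΨ hΦ hX hY
  have hT' := isTubePoint_of_curve q D Ψ a' b' w' hw'.symm (hunit Ψ hΨ) hΦ' hX' hY'
  exact hT.injective hT' hq0 haa hXX (tube_frac_sub_mem Ψ D a b a' b' w w' hw.symm hw'.symm)

end Simple

/-- **Simple zero, valuation form.**  `V` is a valuation subring of a field `E` (a place of
characteristic zero), `φ : A →+* E` maps the nonzero elements of the local domain `A` of the tube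
to units of `V`.  For a point `(a, b)` of the tube in `A` and a point `(h, hq)` of the curve in
`E` in the residue class of `(a, b)` at `V`:
`v ((hq - h ^ q) - (b - a ^ q)) = v (h - a)`; in particular `X - X(P)` is a uniformiser of `V`
if and only if `H - a` is. -/
theorem tube_simple_zero_val {A E : Type*} [CommRing A] [IsLocalRing A] [IsDomain A] [Field E]
    (V : ValuationSubring E) (φ : A →+* E) (hφ : ∀ x : A, x ≠ 0 → V.valuation (φ x) = 1)
    (q : ℕ) (hq0 : (q : A) ≠ 0) (D Ψ : A[X][Y]) (a b : A)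
    (hD : IsUnit (D.evalEval a b)) (hΨ : IsUnit (Ψ.evalEval a b))
    (hΦ : (D * tubeKernel A q - C (C (q : A)) * Ψ).evalEval a b = 0)
    (hX : b - a ^ q ∈ maximalIdeal A) (hY : a - b ^ q ∈ maximalIdeal A)
    (h hq' : E) (hs : V.valuation (h - φ a) < 1) (ht : V.valuation (hq' - φ b) < 1)
    (hcurve : ((D * tubeKernel A q - C (C (q : A)) * Ψ).map (mapRingHom φ)).evalEval h hq' = 0) :
    V.valuation ((hq' - h ^ q) - φ (b - a ^ q)) = V.valuation (h - φ a) := by
  have hmem : ∀ x : A, φ x ∈ V := by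
    intro x
    by_cases hx : x = 0
    · rw [hx, map_zero]
      exact V.zero_mem
    · exact V.mem_of_valuation_le_one _ (hφ x hx).le
  set φ' : A →+* V := φ.codRestrict V.toSubring hmem with hφ'
  have hcomp : V.subtype.comp φ' = φ := by
    ext x
    rfl
  have hsV : h - φ a ∈ V := V.mem_of_valuation_le_one _ hs.le
  have htV : hq' - φ b ∈ V := V.mem_of_valuation_le_one _ ht.le
  have hhV : h ∈ V := by
    have := V.add_mem _ _ (hmem a) hsV
    simpa using this
  have hqV : hq' ∈ V := by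
    have := V.add_mem _ _ (hmem b) htV
    simpa using this
  have hφu : ∀ x : A, x ≠ 0 → IsUnit (φ' x) := by
    intro x hx
    rw [ValuationSubring.valuation_eq_one_iff]
    exact hφ x hx
  have hs' : (⟨h, hhV⟩ : V) - φ' a ∈ maximalIdeal V := by
    rw [ValuationSubring.valuation_lt_one_iff]
    exact hs
  have ht' : (⟨hq', hqV⟩ : V) - φ' b ∈ maximalIdeal V := by
    rw [ValuationSubring.valuation_lt_one_iff]
    exact ht
  have hcurve' : ((D * tubeKernel A q - C (C (q : A)) * Ψ).map (mapRingHom φ')).evalEval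
      (⟨h, hhV⟩ : V) (⟨hq', hqV⟩ : V) = 0 := by
    apply Subtype.coe_injective
    have h1 := map_mapRingHom_evalEval (f := V.subtype)
      (p := (D * tubeKernel A q - C (C (q : A)) * Ψ).map (mapRingHom φ'))
      (⟨h, hhV⟩ : V) (⟨hq', hqV⟩ : V)
    rw [Polynomial.map_map, mapRingHom_comp, hcomp] at h1
    have h2 : (V.subtype (((D * tubeKernel A q - C (C (q : A)) * Ψ).map
        (mapRingHom φ')).evalEval (⟨h, hhV⟩ : V) (⟨hq', hqV⟩ : V)) : E) = 0 := by
      rw [← h1]
      exact hcurve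
    exact h2
  obtain ⟨u, hu, he⟩ := tube_simple_zero φ' hφu q hq0 D Ψ a b hD hΨ hΦ hX hY
    (⟨h, hhV⟩ : V) (⟨hq', hqV⟩ : V) hs' ht' hcurve'
  have hu1 : V.valuation (u : E) = 1 := (ValuationSubring.valuation_eq_one_iff V u).mp hu
  have he' : (hq' - h ^ q) - φ (b - a ^ q) = (h - φ a) * (u : E) := by
    have := congrArg (fun x : V => (x : E)) he
    exact this
  rw [he', map_mul, hu1, mul_one]

end Fermat.Agent.H60.SS
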